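import Fermat.Agent.S55.G.Rec.Spec2

/-!
# S55 / layer G / block REC : (G1b) the product formula in degree-valuation form

`theorem productFormula_of (h1 : OrbitNormSpec) (hv : VdegSpec) : ProductFormulaSpec`.

Take norms in `ι_q (N_{K/ℚ} a) = ∏_{v | q} N_{K_v/ℚ_q} (a_v)` (G1): the left side has norm
`q ^ (- v_q (y))`, the norm of a local relative norm is `‖a_v‖ ^ [G_{ℚ_q} : V]` (Galois invariance
of the norm of `PadicAlgCl q`), which is `q ^ (- vdeg)` by (L1).

Auxiliary results of independent use: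
* `isOpenL_locSub124` : the decomposition-type subgroups of an open subgroup are open,
* `lFixed_locPushMul124` : the local image of a `U`-fixed element is fixed by `locSub q g U`,
* `finiteIndex_of_isOpenL124`, `norm_relNorm124`.
-/

set_option autoImplicit false

noncomputable section

namespace Fermat.Agent.S55.G.Rec.H124

open Fermat.Agent.S55.G.Rec

local notation "Qb" => AlgebraicClosure ℚ
local notation "GQ" => (AlgebraicClosure ℚ ≃ₐ[ℚ] AlgebraicClosure ℚ)

section Local

variable (q : ℕ) [Fact q.Prime]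

local notation "Gq" => (PadicAlgCl q ≃ₐ[ℚ_[q]] PadicAlgCl q)

/-- Galois invariance of the norm of `PadicAlgCl q`. -/
lemma norm_algEquiv124 (τ : Gq) (y : PadicAlgCl q) : ‖τ y‖ = ‖y‖ :=
  (spectralNorm_eq_of_equiv τ y).symm

/-- An open subgroup of `G_{ℚ_q}` has finite index. -/
lemma finiteIndex_of_isOpenL124 {V : Subgroup Gq} (hV : IsOpenL q V) : V.FiniteIndex := by
  obtain ⟨E, hE, hEV⟩ := hV
  have := hE
  have h1 : E.fixingSubgroup.FiniteIndex := by
    refine ⟨?_⟩
    rw [← IntermediateField.finrank_eq_fixingSubgroup_index]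
    exact Module.finrank_pos.ne'
  exact Subgroup.finiteIndex_of_le hEV

/-- The norm of a relative norm is the `index`-th power of the norm. -/
lemma norm_relNorm124 {V : Subgroup Gq} (hV : V.FiniteIndex) (b : (PadicAlgCl q)ˣ) :
    ‖((relNorm V b : (PadicAlgCl q)ˣ) : PadicAlgCl q)‖ = ‖(b : PadicAlgCl q)‖ ^ V.index := by
  classical
  have : Finite (Gq ⧸ V) := Subgroup.finite_quotient_of_finiteIndex
  have : Fintype (Gq ⧸ V) := Fintype.ofFinite _
  unfold relNorm
  rw [finprod_eq_prod_of_fintype, Units.coe_prod, norm_prod]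
  have h : ∀ t : Gq ⧸ V,
      ‖(((Quotient.out t : Gq) • b : (PadicAlgCl q)ˣ) : PadicAlgCl q)‖ = ‖(b : PadicAlgCl q)‖ :=
    fun t => norm_algEquiv124 q _ _
  simp only [h, Finset.prod_const, Finset.card_univ]
  rw [Subgroup.index_eq_card, Nat.card_eq_fintype_card]

/-- The local image of a `U`-fixed element is fixed by `locSub q g U`. -/
lemma lFixed_locPushMul124 {U : Subgroup GQ} {a : Qbˣ} (ha : GFixed U a) (g : GQ) :
    LFixed q (locSub q g U) (locPushMul q g a) := by
  intro τ hτ
  apply Units.ext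
  show τ (padicEmbedding q (g⁻¹ (a : Qb))) = padicEmbedding q (g⁻¹ (a : Qb))
  rw [← padicEmbedding_localGaloisToGlobal]
  congr 1
  have h := ha _ (mem_locSub.1 hτ)
  have h2 : (g * localGaloisToGlobal q τ * g⁻¹) (a : Qb) = a := congrArg Units.val h
  have h3 : g (localGaloisToGlobal q τ ((g⁻¹ : GQ) (a : Qb))) = a := h2
  have h4 := congrArg (g⁻¹ : GQ) h3
  rwa [show (g⁻¹ : GQ) (g (localGaloisToGlobal q τ ((g⁻¹ : GQ) (a : Qb)))) =
    localGaloisToGlobal q τ ((g⁻¹ : GQ) (a : Qb)) from AlgEquiv.symm_apply_apply g _] at h4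

/-- The decomposition-type subgroups of an open subgroup of `G_ℚ` are open. -/
lemma isOpenL_locSub124 {U : Subgroup GQ} (hU : IsOpenQ U) (g : GQ) :
    IsOpenL q (locSub q g U) := by
  obtain ⟨F, hF, hFU⟩ := hU
  have := hF
  let pb : PowerBasis ℚ F := Field.powerBasisOfFiniteOfSeparable ℚ F
  let β : PadicAlgCl q := padicEmbedding q ((g⁻¹ : GQ) (pb.gen : Qb))
  refine ⟨IntermediateField.adjoin ℚ_[q] {β},
    IntermediateField.adjoin.finiteDimensional (Algebra.IsIntegral.isIntegral β), ?_⟩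
  intro τ hτ
  rw [mem_locSub]
  apply hFU
  rw [IntermediateField.mem_fixingSubgroup_iff]
  have hβ : τ β = β :=
    (IntermediateField.mem_fixingSubgroup_iff _ _).1 hτ β
      (IntermediateField.mem_adjoin_simple_self _ _)
  have h1 : localGaloisToGlobal q τ ((g⁻¹ : GQ) (pb.gen : Qb)) = (g⁻¹ : GQ) (pb.gen : Qb) := by
    apply (padicEmbedding q).toRingHom.injective
    show padicEmbedding q _ = padicEmbedding q _
    rw [padicEmbedding_localGaloisToGlobal]
    exact hβ
  have hα : (g * localGaloisToGlobal q τ * g⁻¹) (pb.gen : Qb) = (pb.gen : Qb) := by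
    show g (localGaloisToGlobal q τ ((g⁻¹ : GQ) (pb.gen : Qb))) = (pb.gen : Qb)
    rw [h1]
    exact AlgEquiv.apply_symm_apply g _
  have key : ((g * localGaloisToGlobal q τ * g⁻¹ : GQ) : Qb →ₐ[ℚ] Qb).comp F.val = F.val :=
    pb.algHom_ext hα
  intro x hx
  exact DFunLike.congr_fun key ⟨x, hx⟩

end Local

/-- `a ^ (∑ f) = ∏ a ^ f` for integer exponents. -/
lemma zpow_sum124 {ι : Type*} (s : Finset ι) (f : ι → ℤ) {x : ℝ} (hx : x ≠ 0) :
    x ^ (∑ i ∈ s, f i) = ∏ i ∈ s, x ^ f i := by
  classical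
  induction s using Finset.induction_on with
  | empty => simp
  | insert i s hi ih => rw [Finset.sum_insert hi, Finset.prod_insert hi, zpow_add₀ hx, ih]

/-- **(G1b)** the product formula in degree-valuation form. -/
theorem productFormula_of (h1 : OrbitNormSpec) (hv : VdegSpec) : ProductFormulaSpec := by
  intro U hU a ha y hy q _ R hR
  have hprod := (h1 U hU a ha).2 q R hR
  have hq1 : (1 : ℝ) < (q : ℝ) := by exact_mod_cast (Fact.out : q.Prime).one_lt
  have hq0 : (q : ℝ) ≠ 0 := by positivity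
  -- the left side
  have hL : ‖((locPushMul q 1 (relNorm U a) : (PadicAlgCl q)ˣ) : PadicAlgCl q)‖ =
      (q : ℝ) ^ (-padicValRat q (y : ℚ)) := by
    rw [locPushMul_coe, inv_one]
    show ‖padicEmbedding q ((relNorm U a : Qbˣ) : Qb)‖ = _
    rw [hy, AlgHom.commutes, IsScalarTower.algebraMap_apply ℚ ℚ_[q] (PadicAlgCl q),
      PadicAlgCl.norm_extends]
    rw [show (algebraMap ℚ ℚ_[q] (y : ℚ)) = (((y : ℚ)) : ℚ_[q]) from rfl,
      Padic.eq_padicNorm, padicNorm.eq_zpow_of_nonzero (Units.ne_zero y)]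
    push_cast
    rfl
  -- the right side
  have hR' : ‖((∏ r ∈ R, relNorm (locSub q r U) (locPushMul q r a) : (PadicAlgCl q)ˣ) :
      PadicAlgCl q)‖ = (q : ℝ) ^ (-∑ r ∈ R, vdeg q (locSub q r U) (locPushMul q r a)) := by
    rw [Units.coe_prod, norm_prod, ← Finset.sum_neg_distrib, zpow_sum124 _ _ hq0]
    refine Finset.prod_congr rfl fun r _ => ?_
    have hO := isOpenL_locSub124 q hU r
    rw [norm_relNorm124 q (finiteIndex_of_isOpenL124 q hO)]
    exact hv q (locSub q r U) hO _ (lFixed_locPushMul124 q ha r)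
  rw [hprod, hR'] at hL
  have h := zpow_right_injective₀ (by positivity : (0 : ℝ) < q) hq1.ne' hL
  exact (neg_injective h).symm

end Fermat.Agent.S55.G.Rec.H124
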