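import Fermat.Agent.S55.G.Rec.Spec2

/-!
# S55 / layer G / block REC : the localisation of a class depends only on the place

The place of `K = ℚ̄^U` induced by `ι_q ∘ g⁻¹` depends only on the double coset `U g D_q`.
We prove the corresponding statement for the vanishing of localised classes:

* `locBr_conj_eq_zero124` : `locBr q g U z = 0 → locBr q (u * g * loc θ) U z = 0` for `u ∈ U`,
  `θ ∈ G_{ℚ_q}`;
* `locBr_eq_zero_of_reps124` : if `R` is a system of representatives of `U \ G_ℚ / D_q` and
  `locBr q r U z = 0` for all `r ∈ R`, then `locBr q g U z = 0` for ALL `g`.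

(Needed for STEP C, `KillAbovePSpec`, whose conclusion quantifies over all `g`.)

The proof is at cochain level: right multiplication by `loc θ` is transport of structure along
conjugation by `θ`; left multiplication by `u ∈ U` is the inner automorphism of `U`, which acts
trivially on cohomology through the explicit homotopy `innerHomotopy124`, and this homotopy is
level-constant.
-/

set_option autoImplicit false

noncomputable section

namespace Fermat.Agent.S55.G.Rec.H124

open groupCohomology

local notation "Qb" => AlgebraicClosure ℚ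
local notation "GQ" => (AlgebraicClosure ℚ ≃ₐ[ℚ] AlgebraicClosure ℚ)

universe u

section Abstract

variable {k : Type u} [CommRing k] {G : Type u} [Group G] (A : Rep k G)

/-- The homotopy for the inner automorphism by `u`. -/
def innerHomotopy124 (c : G × G → A) (u : G) : G → A :=
  fun h => A.ρ u⁻¹ (c (u * h * u⁻¹, u) - c (u, h))

/-- The conjugate of a 2-cochain by `u`. -/
def innerConj124 (c : G × G → A) (u : G) : G × G → A :=
  fun p => A.ρ u⁻¹ (c (u * p.1 * u⁻¹, u * p.2 * u⁻¹))

lemma rho_inv_rho124 (u : G) (x : A) : A.ρ u⁻¹ (A.ρ u x) = x := by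
  rw [← Module.End.mul_apply, ← map_mul, inv_mul_cancel, map_one, Module.End.one_apply]

lemma rho_rho_inv124 (u : G) (x : A) : A.ρ u (A.ρ u⁻¹ x) = x := by
  rw [← Module.End.mul_apply, ← map_mul, mul_inv_cancel, map_one, Module.End.one_apply]

/-- Inner automorphisms act trivially on `H²`, explicitly. -/
lemma innerConj_eq124 (c : G × G → A) (hc : c ∈ cocycles₂ A) (u : G) :
    innerConj124 A c u = c + (d₁₂ A).hom (innerHomotopy124 A c u) := by
  rw [mem_cocycles₂_def] at hc
  funext ⟨h₁, h₂⟩
  have inj : Function.Injective (A.ρ u) := fun x y hxy => by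
    have := congrArg (A.ρ u⁻¹) hxy
    rwa [rho_inv_rho124, rho_inv_rho124] at this
  apply inj
  simp only [innerConj124, innerHomotopy124, Pi.add_apply, d₁₂_hom_apply, map_add, map_sub,
    rho_rho_inv124]
  have E1 := hc (u * h₁ * u⁻¹) (u * h₂ * u⁻¹) u
  have E2 := hc (u * h₁ * u⁻¹) u h₂
  have E3 := hc u h₁ h₂
  have g1 : u * h₁ * u⁻¹ * (u * h₂ * u⁻¹) = u * (h₁ * h₂) * u⁻¹ := by group
  have g2 : u * h₂ * u⁻¹ * u = u * h₂ := by group
  have g3 : u * h₁ * u⁻¹ * u = u * h₁ := by group
  rw [g1, g2] at E1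
  rw [g3] at E2
  have r1 : ∀ x : A, A.ρ u (A.ρ h₁ (A.ρ u⁻¹ x)) = A.ρ (u * h₁ * u⁻¹) x := by
    intro x
    rw [map_mul, map_mul, Module.End.mul_apply, Module.End.mul_apply]
  rw [r1, r1]
  linear_combination (norm := abel) -E1 + E2 - E3

end Abstract

section Global

/-- The homotopy of a level-constant cochain is level-constant. -/
lemma isLevelConstant₁_innerHomotopy124 (U : Subgroup GQ) (c : ↥U × ↥U → gModOn U)
    (hc : IsLevelConstant₂ U.subtype c) (u : ↥U) :
    IsLevelConstant₁ U.subtype (innerHomotopy124 (gModOn U) c u) := by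
  obtain ⟨F, hF, h⟩ := hc
  have := hF
  have := finiteDimensional_map_inv F (u : GQ)
  refine ⟨F ⊔ F.map ((u : GQ)⁻¹ : GQ).toAlgHom, inferInstance, fun x s hs => ?_⟩
  have hs1 : U.subtype s ∈ F.fixingSubgroup :=
    IntermediateField.fixingSubgroup_antitone le_sup_left hs
  have hs2 : U.subtype (u * s * u⁻¹) ∈ F.fixingSubgroup :=
    (mem_fixingSubgroup_map_inv F (u : GQ) (s : GQ)).1
      (IntermediateField.fixingSubgroup_antitone le_sup_right hs)
  have h1 : (1 : ↥U) ∈ U.subtype ⁻¹' (F.fixingSubgroup : Set GQ) := by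
    show U.subtype 1 ∈ F.fixingSubgroup
    rw [map_one]; exact one_mem _
  unfold innerHomotopy124
  have e1 : c (u * (x * s) * u⁻¹, u) = c (u * x * u⁻¹, u) := by
    have := h (u * x * u⁻¹) u (u * s * u⁻¹) 1 hs2 h1
    rw [mul_one] at this
    rw [← this]
    congr 2
    group
  have e2 : c (u, x * s) = c (u, x) := by
    have := h u x 1 s h1 hs1
    rwa [mul_one] at this
  rw [e1, e2]

end Global

section Local

variable (q : ℕ) [Fact q.Prime]

local notation "Gq" => (PadicAlgCl q ≃ₐ[ℚ_[q]] PadicAlgCl q)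

variable (U : Subgroup GQ) (g u : GQ)

/-- Conjugation by `θ`, from the local group at `u g loc(θ)` to the local group at `g`. -/
def conjHom124 (θ : Gq) (hu : u ∈ U) :
    ↥(locSub q (u * g * localGaloisToGlobal q θ) U) →* ↥(locSub q g U) where
  toFun τ := ⟨θ * τ * θ⁻¹, by
    rw [mem_locSub]
    have h := τ.2
    rw [mem_locSub] at h
    have e : g * localGaloisToGlobal q (θ * τ * θ⁻¹) * g⁻¹ =
        u⁻¹ * (u * g * localGaloisToGlobal q θ * localGaloisToGlobal q τ *
          (u * g * localGaloisToGlobal q θ)⁻¹) * u := by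
      simp only [map_mul, map_inv]
      group
    rw [e]
    exact U.mul_mem (U.mul_mem (U.inv_mem hu) h) hu⟩
  map_one' := by ext1; simp
  map_mul' a b := by ext1; simp [mul_assoc]

@[simp] lemma conjHom124_coe (θ : Gq) (hu : u ∈ U)
    (τ : ↥(locSub q (u * g * localGaloisToGlobal q θ) U)) :
    ((conjHom124 q U g u θ hu τ : ↥(locSub q g U)) : Gq) = θ * τ * θ⁻¹ := rfl

/-- The coefficient map `x ↦ θ⁻¹ x`. -/
def conjPush124 (θ : Gq) : lModOn q (locSub q g U) →ₗ[ℤ]
    lModOn q (locSub q (u * g * localGaloisToGlobal q θ) U) :=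
  (MonoidHom.toAdditive (MulDistribMulAction.toMonoidHom (PadicAlgCl q)ˣ θ⁻¹)).toIntLinearMap

lemma conjPush124_apply (θ : Gq) (a : lModOn q (locSub q g U)) :
    conjPush124 q U g u θ a = Additive.ofMul (θ⁻¹ • (Additive.toMul a : (PadicAlgCl q)ˣ)) := rfl

lemma conjPush124_equivariant (θ : Gq) (hu : u ∈ U)
    (τ : ↥(locSub q (u * g * localGaloisToGlobal q θ) U)) (a : lModOn q (locSub q g U)) :
    conjPush124 q U g u θ ((lModOn q (locSub q g U)).ρ (conjHom124 q U g u θ hu τ) a) =
      (lModOn q (locSub q (u * g * localGaloisToGlobal q θ) U)).ρ τ (conjPush124 q U g u θ a) := by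
  apply Additive.toMul.injective
  show θ⁻¹ • ((θ * (τ : Gq) * θ⁻¹) • (Additive.toMul a : (PadicAlgCl q)ˣ)) =
    (τ : Gq) • (θ⁻¹ • (Additive.toMul a : (PadicAlgCl q)ˣ))
  rw [← mul_smul, ← mul_smul]
  congr 1
  group

/-- Level-constancy is preserved by conjugation by `θ`. -/
lemma isLevelConstant₁_conj124 (θ : Gq) (hu : u ∈ U) {X : Type*} {x : ↥(locSub q g U) → X}
    (hx : IsLevelConstant₁ (lHom q (locSub q g U)) x) :
    IsLevelConstant₁ (lHom q (locSub q (u * g * localGaloisToGlobal q θ) U))
      (x ∘ conjHom124 q U g u θ hu) := by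
  obtain ⟨F, hF, h⟩ := hx
  have := hF
  refine ⟨F.map ((localGaloisToGlobal q θ)⁻¹ : GQ).toAlgHom,
    finiteDimensional_map_inv F (localGaloisToGlobal q θ), fun τ σ hσ => ?_⟩
  simp only [Function.comp_apply, map_mul]
  refine h _ _ ?_
  have := (mem_fixingSubgroup_map_inv F (localGaloisToGlobal q θ) _).1 hσ
  show localGaloisToGlobal q (θ * (σ : Gq) * θ⁻¹) ∈ F.fixingSubgroup
  rw [map_mul, map_mul, map_inv]
  exact this

/-- **Cochain-level statement**: if the localisation at `g` of a level cocycle is a level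
coboundary, so is its localisation at `u g loc(θ)`. -/
theorem locCochain₂_conj_mem124 (θ : Gq) (hu : u ∈ U) (c : ↥U × ↥U → gModOn U)
    (hc : c ∈ levelCocycles₂ U.subtype (gModOn U))
    (h : locCochain₂ q g U c ∈
      levelCoboundaries₂ (lHom q (locSub q g U)) (lModOn q (locSub q g U))) :
    locCochain₂ q (u * g * localGaloisToGlobal q θ) U c ∈
      levelCoboundaries₂ (lHom q (locSub q (u * g * localGaloisToGlobal q θ) U))
        (lModOn q (locSub q (u * g * localGaloisToGlobal q θ) U)) := by
  obtain ⟨b, hb, hbc⟩ := (mem_levelCoboundaries₂_iff _ _ _).1 h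
  set uU : ↥U := ⟨u, hu⟩ with huU
  set β := innerHomotopy124 (gModOn U) c uU with hβ
  have hconj := innerConj_eq124 (gModOn U) c hc.1 uU
  have hβl : IsLevelConstant₁ U.subtype β := isLevelConstant₁_innerHomotopy124 U c hc.2 uU
  -- the key identity
  have key : locCochain₂ q (u * g * localGaloisToGlobal q θ) U c =
      cochainsPullPush₂ (conjHom124 q U g u θ hu) (conjPush124 q U g u θ)
        (locCochain₂ q g U (innerConj124 (gModOn U) c uU)) := by
    funext ⟨τ₁, τ₂⟩
    have hh : ∀ τ : ↥(locSub q (u * g * localGaloisToGlobal q θ) U),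
        uU * locHom q g U (conjHom124 q U g u θ hu τ) * uU⁻¹ =
          locHom q (u * g * localGaloisToGlobal q θ) U τ := by
      intro τ
      apply Subtype.ext
      show u * (g * localGaloisToGlobal q (θ * (τ : Gq) * θ⁻¹) * g⁻¹) * u⁻¹ =
        u * g * localGaloisToGlobal q θ * localGaloisToGlobal q τ *
          (u * g * localGaloisToGlobal q θ)⁻¹
      simp only [map_mul, map_inv]
      group
    have hp : ∀ m : gModOn U,
        conjPush124 q U g u θ (locPush q g U ((gModOn U).ρ uU⁻¹ m)) =
          locPush q (u * g * localGaloisToGlobal q θ) U m := by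
      intro m
      apply Additive.toMul.injective
      apply Units.ext
      show θ⁻¹ (padicEmbedding q (g⁻¹ ((u⁻¹ : GQ) ((Additive.toMul m : Qbˣ) : Qb)))) =
        padicEmbedding q ((u * g * localGaloisToGlobal q θ)⁻¹ ((Additive.toMul m : Qbˣ) : Qb))
      rw [← padicEmbedding_localGaloisToGlobal, map_inv]
      congr 1
    show locPush q (u * g * localGaloisToGlobal q θ) U
        (c (locHom q (u * g * localGaloisToGlobal q θ) U τ₁,
          locHom q (u * g * localGaloisToGlobal q θ) U τ₂)) =
      conjPush124 q U g u θ (locPush q g U ((gModOn U).ρ uU⁻¹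
        (c (uU * locHom q g U (conjHom124 q U g u θ hu τ₁) * uU⁻¹,
          uU * locHom q g U (conjHom124 q U g u θ hu τ₂) * uU⁻¹))))
    rw [hh, hh, hp]
  rw [key, hconj, map_add, ← hbc]
  have e1 : locCochain₂ q g U ((d₁₂ (gModOn U)).hom β) =
      (d₁₂ (lModOn q (locSub q g U))).hom (locCochain₁ q g U β) :=
    cochainsPullPush₂_d₁₂ (locHom q g U) (locPush q g U) (locPush_equivariant q g U) β
  rw [e1, ← map_add, cochainsPullPush₂_d₁₂ (conjHom124 q U g u θ hu) (conjPush124 q U g u θ)
    (conjPush124_equivariant q U g u θ hu)]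
  refine (mem_levelCoboundaries₂_iff _ _ _).2 ⟨_, ?_, rfl⟩
  have hB : IsLevelConstant₁ (lHom q (locSub q g U)) (b + locCochain₁ q g U β) :=
    hb.add ((isLevelConstant₁_loc q g U hβl).comp (locPush q g U) :)
  exact ((isLevelConstant₁_conj124 q U g u θ hu hB).comp (conjPush124 q U g u θ) :)

/-- **The vanishing of a localised class depends only on the place.** -/
theorem locBr_conj_eq_zero124 (θ : Gq) (hu : u ∈ U) (z : gBr U) (h : locBr q g U z = 0) :
    locBr q (u * g * localGaloisToGlobal q θ) U z = 0 := by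
  obtain ⟨c, rfl⟩ := Submodule.mkQ_surjective _ z
  change locBr q g U (continuousH2π U.subtype (gModOn U) c) = 0 at h
  change locBr q (u * g * localGaloisToGlobal q θ) U (continuousH2π U.subtype (gModOn U) c) = 0
  rw [locBr_mk, continuousH2π_eq_zero_iff] at h ⊢
  exact locCochain₂_conj_mem124 q U g u θ hu c c.2 h

/-- If a class vanishes at a system of representatives of the places above `q`, it vanishes at
all places above `q`. -/
theorem locBr_eq_zero_of_reps124 (R : Finset GQ)
    (hR : IsDoubleCosetReps U (localGaloisToGlobal q).range R) (z : gBr U)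
    (h : ∀ r ∈ R, locBr q r U z = 0) (g : GQ) : locBr q g U z = 0 := by
  obtain ⟨r, ⟨hr, u, hu, d, ⟨θ, rfl⟩, rfl⟩, -⟩ := hR g
  exact locBr_conj_eq_zero124 q U r u θ hu z (h r hr)

end Local

end Fermat.Agent.S55.G.Rec.H124
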